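/-
S28 [L3]: twist automorphism `t ↦ c·t` of Laurent series and its interaction with `qExpand`.
-/
import Mathlib
import Fermat.Agent.S28.Defs

set_option autoImplicit false

noncomputable section

open ModularCurve HahnSeries

namespace Fermat.Agent.S28.H208

variable {k : Type*} [Field k]

/-- Twist `Σ aₙ tⁿ ↦ Σ aₙ cⁿ tⁿ`. -/
def twFun (c : k) (f : LaurentSeries k) : LaurentSeries k where
  coeff n := c ^ n * f.coeff n
  isPWO_support' := f.isPWO_support.mono fun n hn => by
    simp only [Function.mem_support, ne_eq] at hn ⊢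
    intro h
    exact hn (by rw [h, mul_zero])

@[simp] theorem twFun_coeff (c : k) (f : LaurentSeries k) (n : ℤ) :
    (twFun c f).coeff n = c ^ n * f.coeff n := rfl

theorem twFun_support (c : k) (hc : c ≠ 0) (f : LaurentSeries k) :
    (twFun c f).support = f.support := by
  ext n
  simp only [HahnSeries.mem_support, twFun_coeff, ne_eq, mul_eq_zero, not_or]
  constructor
  · exact fun h => h.2
  · exact fun h => ⟨zpow_ne_zero n hc, h⟩

theorem twFun_mul (c : k) (hc : c ≠ 0) (x y : LaurentSeries k) :
    twFun c (x * y) = twFun c x * twFun c y := by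
  ext n
  rw [twFun_coeff, HahnSeries.coeff_mul, HahnSeries.coeff_mul, Finset.mul_sum]
  symm
  refine Finset.sum_congr ?_ fun ij hij => ?_
  · ext ij
    simp only [Finset.mem_antidiagonal, twFun_support c hc]
  · have h : ij.1 + ij.2 = n := (Finset.mem_antidiagonal.mp hij).2.2
    rw [twFun_coeff, twFun_coeff, ← h, zpow_add₀ hc]
    ring

/-- The twist as a ring homomorphism. -/
def tw (c : k) (hc : c ≠ 0) : LaurentSeries k →+* LaurentSeries k where
  toFun := twFun c
  map_one' := by
    ext n
    rw [twFun_coeff, HahnSeries.coeff_one]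
    split_ifs with h
    · subst h; simp
    · simp
  map_mul' := twFun_mul c hc
  map_zero' := by
    ext n
    simp
  map_add' x y := by
    ext n
    simp [mul_add]

@[simp] theorem tw_coeff (c : k) (hc : c ≠ 0) (f : LaurentSeries k) (n : ℤ) :
    (tw c hc f).coeff n = c ^ n * f.coeff n := rfl

/-- Twisting a series in `t^m` by `c` with `c^m = 1` does nothing. -/
theorem tw_qExpand_of_pow_eq_one (c : k) (hc : c ≠ 0) (m : ℕ) [NeZero m] (hcm : c ^ m = 1)
    (f : LaurentSeries k) : tw c hc (qExpand k m f) = qExpand k m f := by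
  ext n
  rw [tw_coeff]
  by_cases hn : (m : ℤ) ∣ n
  · obtain ⟨a, rfl⟩ := hn
    rw [zpow_mul, zpow_natCast, hcm, one_zpow, one_mul]
  · rw [qExpand_coeff_of_not_dvd m f hn, mul_zero]

end Fermat.Agent.S28.H208

end
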