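/-
S28 [L3]: consequences of `ModPolyData` over arbitrary coefficient rings and the
root list of `Φ_p(X, j(t^p))` over a field containing a primitive `p`-th root of unity.
-/
import Mathlib
import Fermat.Agent.S28.Defs
import Fermat.Agent.S28.H208.Twist

set_option autoImplicit false

noncomputable section

open ModularCurve Polynomial

namespace Fermat.Agent.S28.H208

section Hom

variable {S S' : Type*} [CommRing S] [CommRing S']

/-- Evaluation `ℤ[Y] → S`, `Y ↦ y` (same as `evalAt`, for an arbitrary target ring). -/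
abbrev evZ (y : S) : Polynomial ℤ →+* S := (Polynomial.aeval (R := ℤ) y).toRingHom

theorem evZ_comp (h : S →+* S') (y : S) : h.comp (evZ y) = evZ (h y) := by
  refine Polynomial.ringHom_ext' (Subsingleton.elim _ _) ?_
  simp [evZ]

theorem evalAt_eq_evZ {A : Type*} [CommRing A] (y : LaurentSeries A) : evalAt y = evZ y := by
  refine Polynomial.ringHom_ext' (Subsingleton.elim _ _) ?_
  simp [evZ, evalAt]

theorem eval₂_evZ_hom (h : S →+* S') (Φ : Polynomial (Polynomial ℤ)) (y x : S)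
    (hx : Φ.eval₂ (evZ y) x = 0) : Φ.eval₂ (evZ (h y)) (h x) = 0 := by
  rw [← evZ_comp, ← Polynomial.hom_eval₂, hx, map_zero]

theorem map_map_evZ (h : S →+* S') (Φ : Polynomial (Polynomial ℤ)) (y : S) :
    (Φ.map (evZ y)).map h = Φ.map (evZ (h y)) := by
  rw [Polynomial.map_map, evZ_comp]

end Hom

section Ring

variable (A : Type*) [CommRing A] {p : ℕ} [NeZero p] (D : ModPolyData p)

theorem coeffMap_int_jd (d : ℕ) [NeZero d] :
    coeffMap (Int.castRingHom A) (qExpand ℤ d (jqModC ℤ)) = qExpand A d (jqModC A) := by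
  rw [coeffMap_qExpand, coeffMap_jqModC]

/-- `Φ_p(j(q^p), j(q)) = 0` over any commutative ring. -/
theorem eval_jp_ring : D.Φ.eval₂ (evZ (jqModC A)) (qExpand A p (jqModC A)) = 0 := by
  have h := eval₂_evZ_hom (coeffMap (Int.castRingHom A)) D.Φ (jqModC ℤ)
    (qExpand ℤ p (jqModC ℤ)) (by rw [← evalAt_eq_evZ]; exact D.eval_jp)
  rwa [coeffMap_int_jd, coeffMap_jqModC] at h

/-- `Φ_p(j(q), j(q^p)) = 0` over any commutative ring. -/
theorem eval_j_ring : D.Φ.eval₂ (evZ (qExpand A p (jqModC A))) (jqModC A) = 0 := by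
  have h := eval₂_evZ_hom (coeffMap (Int.castRingHom A)) D.Φ (qExpand ℤ p (jqModC ℤ))
    (jqModC ℤ) (by rw [← evalAt_eq_evZ]; exact D.eval_j)
  rwa [coeffMap_int_jd, coeffMap_jqModC] at h

/-- `Φ_p(j(q^{mp}), j(q^m)) = 0`. -/
theorem eval_jp_ring_qExpand (m : ℕ) [NeZero m] [NeZero (m * p)] :
    D.Φ.eval₂ (evZ (qExpand A m (jqModC A))) (qExpand A (m * p) (jqModC A)) = 0 := by
  have h := eval₂_evZ_hom (qExpand A m) D.Φ _ _ (eval_jp_ring A D)
  rwa [qExpand_qExpand] at h

/-- `Φ_p(j(q^m), j(q^{mp})) = 0`. -/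
theorem eval_j_ring_qExpand (m : ℕ) [NeZero m] [NeZero (m * p)] :
    D.Φ.eval₂ (evZ (qExpand A (m * p) (jqModC A))) (qExpand A m (jqModC A)) = 0 := by
  have h := eval₂_evZ_hom (qExpand A m) D.Φ _ _ (eval_j_ring A D)
  rwa [qExpand_qExpand] at h

end Ring

section Coeff

variable (A : Type*) [CommRing A]

theorem coeff_jd_neg (d : ℕ) [NeZero d] :
    (qExpand A d (jqModC A)).coeff (-(d : ℤ)) = 1 := by
  have h := qExpand_coeff_mul (R := A) d (jqModC A) (-1)
  rw [coeff_jqModC_neg_one] at h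
  rwa [mul_neg, mul_one] at h

theorem coeff_jd_of_lt (d : ℕ) [NeZero d] {n : ℤ} (hn : n < -(d : ℤ)) :
    (qExpand A d (jqModC A)).coeff n = 0 := by
  by_cases hdn : (d : ℤ) ∣ n
  · obtain ⟨a, rfl⟩ := hdn
    rw [qExpand_coeff_mul]
    have hd : (0 : ℤ) < d := by exact_mod_cast Nat.pos_of_ne_zero (NeZero.ne d)
    have ha : a < -1 := by
      by_contra hcon
      have hcon' : -1 ≤ a := not_lt.mp hcon
      nlinarith
    have := coeff_jqModC_pow_of_lt A (b := 1) (m := a) (by simpa using ha)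
    simpa using this
  · exact qExpand_coeff_of_not_dvd d _ hdn

end Coeff

section Field

variable {K : Type*} [Field K] {p : ℕ} [NeZero p] (D : ModPolyData p)

/-- The `p + 1` roots of `Φ_p(X, j(t^p))` in `K((t))`: `j(t^{p²})` and `j(ζ^b t)`, `b < p`. -/
def rootAt (ζ : K) (hζ : ζ ≠ 0) : Option (Fin p) → LaurentSeries K
  | none => qExpand K (p * p) (jqModC K)
  | some b => tw (ζ ^ (b : ℕ)) (pow_ne_zero _ hζ) (jqModC K)

theorem rootAt_none_coeff_neg_one (hp : 1 < p) (ζ : K) (hζ : ζ ≠ 0) :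
    (rootAt (p := p) ζ hζ none).coeff (-1) = 0 := by
  apply qExpand_coeff_of_not_dvd
  intro h
  have h1 : ((p * p : ℕ) : ℤ) ∣ 1 := by simpa using (dvd_neg.mpr h)
  have h2 : (p * p : ℕ) ∣ 1 := by exact_mod_cast h1
  have h3 := Nat.le_of_dvd one_pos h2
  nlinarith

theorem rootAt_some_coeff_neg_one (ζ : K) (hζ : ζ ≠ 0) (b : Fin p) :
    (rootAt (p := p) ζ hζ (some b)).coeff (-1) = (ζ ^ (b : ℕ))⁻¹ := by
  show (tw _ _ (jqModC K)).coeff (-1) = _
  rw [tw_coeff, coeff_jqModC_neg_one, mul_one, zpow_neg_one]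

theorem rootAt_injective (hp : 1 < p) (ζ : K) (hζ : IsPrimitiveRoot ζ p) :
    Function.Injective (rootAt (p := p) ζ (hζ.ne_zero (NeZero.ne p))) := by
  have hζ0 : ζ ≠ 0 := hζ.ne_zero (NeZero.ne p)
  intro a b hab
  have hc : (rootAt ζ hζ0 a).coeff (-1) = (rootAt ζ hζ0 b).coeff (-1) := by rw [hab]
  rcases a with _ | a <;> rcases b with _ | b
  · rfl
  · rw [rootAt_none_coeff_neg_one hp, rootAt_some_coeff_neg_one] at hc
    exact absurd hc.symm (inv_ne_zero (pow_ne_zero _ hζ0))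
  · rw [rootAt_none_coeff_neg_one hp, rootAt_some_coeff_neg_one] at hc
    exact absurd hc (inv_ne_zero (pow_ne_zero _ hζ0))
  · rw [rootAt_some_coeff_neg_one, rootAt_some_coeff_neg_one] at hc
    have h := hζ.pow_inj a.2 b.2 (inv_injective hc)
    exact congrArg some (Fin.ext h)

theorem rootAt_isRoot (ζ : K) (hζ : IsPrimitiveRoot ζ p) (i : Option (Fin p)) :
    (D.Φ.map (evZ (qExpand K p (jqModC K)))).IsRoot (rootAt ζ (hζ.ne_zero (NeZero.ne p)) i) := by
  have hζ0 : ζ ≠ 0 := hζ.ne_zero (NeZero.ne p)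
  rw [Polynomial.IsRoot, Polynomial.eval_map]
  rcases i with _ | b
  · have h := eval_jp_ring_qExpand K D p
    exact h
  · have h := eval₂_evZ_hom (tw (ζ ^ (b : ℕ)) (pow_ne_zero _ hζ0)) D.Φ _ _ (eval_j_ring K D)
    rwa [tw_qExpand_of_pow_eq_one] at h
    rw [← pow_mul, mul_comm, pow_mul, hζ.pow_eq_one, one_pow]

/-- **Root list** of the modular polynomial at prime level. -/
theorem map_eq_prod_rootAt (hp : 1 < p) (ζ : K) (hζ : IsPrimitiveRoot ζ p) :
    D.Φ.map (evZ (qExpand K p (jqModC K))) =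
      ∏ i : Option (Fin p), (X - C (rootAt ζ (hζ.ne_zero (NeZero.ne p)) i)) := by
  have hmonic : (D.Φ.map (evZ (qExpand K p (jqModC K)))).Monic := D.monic.map _
  have hprod_monic : (∏ i : Option (Fin p),
      (X - C (rootAt ζ (hζ.ne_zero (NeZero.ne p)) i))).Monic :=
    Polynomial.monic_prod_of_monic _ _ fun i _ => Polynomial.monic_X_sub_C _
  have hdvd : (∏ i : Option (Fin p), (X - C (rootAt ζ (hζ.ne_zero (NeZero.ne p)) i))) ∣
      D.Φ.map (evZ (qExpand K p (jqModC K))) := by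
    refine Finset.prod_dvd_of_coprime ?_ ?_
    · intro i _ j _ hij
      exact Polynomial.pairwise_coprime_X_sub_C (rootAt_injective hp ζ hζ) hij
    · intro i _
      exact Polynomial.dvd_iff_isRoot.mpr (rootAt_isRoot D ζ hζ i)
  refine Polynomial.eq_of_monic_of_dvd_of_natDegree_le hprod_monic hmonic hdvd ?_
  rw [D.monic.natDegree_map, D.natDegree_eq, Polynomial.natDegree_prod_of_monic _ _
    fun i _ => Polynomial.monic_X_sub_C _]
  simp

/-- Root list after the substitution `t ↦ t^m`. -/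
theorem map_eq_prod_rootAt_qExpand (hp : 1 < p) (ζ : K) (hζ : IsPrimitiveRoot ζ p)
    (m : ℕ) [NeZero m] [NeZero (m * p)] :
    D.Φ.map (evZ (qExpand K (m * p) (jqModC K))) =
      ∏ i : Option (Fin p),
        (X - C (qExpand K m (rootAt ζ (hζ.ne_zero (NeZero.ne p)) i))) := by
  have h := congrArg (Polynomial.map (qExpand K m)) (map_eq_prod_rootAt D hp ζ hζ)
  rw [map_map_evZ, qExpand_qExpand, Polynomial.map_prod] at h
  rw [h]
  refine Finset.prod_congr rfl fun i _ => ?_
  rw [Polynomial.map_sub, Polynomial.map_X, Polynomial.map_C]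

end Field

end Fermat.Agent.S28.H208

end
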