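/-
S28 [L4]: the gcd / generation lemma.  For distinct primes `p ≠ r` invertible in `k`,
`j(q^{pr}) ∈ k(j(q^r), j(q^p))`, because it is the unique common root of
`Φ_p(X, j(q^r))` and `Φ_r(X, j(q^p))`.
-/
import Mathlib
import Fermat.Agent.S28.Defs
import Fermat.Agent.S28.H208.Twist
import Fermat.Agent.S28.H208.RootList

set_option autoImplicit false

noncomputable section

open ModularCurve Polynomial

namespace Fermat.Agent.S28.H208

section Gcd

variable (k : Type*) [Field k]

/-- The embedding `k((q)) → k̄((t))`, `q ↦ t^e`. -/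
def iotaE (e : ℕ) [NeZero e] : LaurentSeries k →+* LaurentSeries (AlgebraicClosure k) :=
  (qExpand (AlgebraicClosure k) e).comp (coeffMap (algebraMap k (AlgebraicClosure k)))

theorem iotaE_jd (e : ℕ) [NeZero e] (d : ℕ) [NeZero d] :
    iotaE k e (qExpand k d (jqModC k)) =
      qExpand (AlgebraicClosure k) (e * d) (jqModC (AlgebraicClosure k)) := by
  rw [iotaE, RingHom.comp_apply, coeffMap_qExpand, coeffMap_jqModC, qExpand_qExpand]

theorem iotaE_injective (e : ℕ) [NeZero e] : Function.Injective (iotaE k e) :=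
  (iotaE k e).injective

variable {k}

theorem qExpand_coeff_neg_eq_zero_of_not_dvd {A : Type*} [CommRing A] (a b : ℕ) [NeZero a]
    (h : ¬ a ∣ b) (f : LaurentSeries A) : (qExpand A a f).coeff (-(b : ℤ)) = 0 := by
  apply qExpand_coeff_of_not_dvd
  intro h'
  exact h (by exact_mod_cast (dvd_neg.mp h'))

theorem qExpand_rootAt_some_coeff {K : Type*} [Field K] {p : ℕ} [NeZero p] (ζ : K) (hζ : ζ ≠ 0)
    (m : ℕ) [NeZero m] (b : Fin p) :
    (qExpand K m (rootAt (p := p) ζ hζ (some b))).coeff (-(m : ℤ)) = (ζ ^ (b : ℕ))⁻¹ := by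
  have h := qExpand_coeff_mul (R := K) m (rootAt (p := p) ζ hζ (some b)) (-1)
  rw [rootAt_some_coeff_neg_one, mul_neg, mul_one] at h
  exact h

theorem qExpand_rootAt_none {K : Type*} [Field K] {p : ℕ} [NeZero p] (ζ : K) (hζ : ζ ≠ 0)
    (m : ℕ) [NeZero m] :
    qExpand K m (rootAt (p := p) ζ hζ none) = qExpand K (m * (p * p)) (jqModC K) := by
  show qExpand K m (qExpand K (p * p) (jqModC K)) = _
  rw [qExpand_qExpand]

/-- Key coprimality: the "new" roots of `Φ_p(X, j(t^{r²p}))` are not roots of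
`Φ_r(X, j(t^{p²r}))`. -/
theorem gcd_core {K : Type*} [Field K] {p r : ℕ} [NeZero p] [NeZero r]
    (hp : p.Prime) (hr : r.Prime) (hpr : p ≠ r) (Dr : ModPolyData r)
    (ζp ζr : K) (hζp : IsPrimitiveRoot ζp p) (hζr : IsPrimitiveRoot ζr r) :
    IsCoprime
      (∏ b : Fin p, (X - C (qExpand K (r * r) (rootAt ζp (hζp.ne_zero (NeZero.ne p)) (some b)))))
      (Dr.Φ.map (evZ (qExpand K (p * p * r) (jqModC K)))) := by
  have hζp0 : ζp ≠ 0 := hζp.ne_zero (NeZero.ne p)
  have hζr0 : ζr ≠ 0 := hζr.ne_zero (NeZero.ne r)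
  rw [map_eq_prod_rootAt_qExpand Dr hr.one_lt ζr hζr (p * p)]
  refine IsCoprime.prod_left fun b _ => IsCoprime.prod_right fun i _ => ?_
  refine Polynomial.isCoprime_X_sub_C_of_isUnit_sub (IsUnit.mk0 _ (sub_ne_zero.mpr ?_))
  intro heq
  have hc : (qExpand K (r * r) (rootAt ζp hζp0 (some b))).coeff (-((r * r : ℕ) : ℤ)) =
      (qExpand K (p * p) (rootAt ζr hζr0 i)).coeff (-((r * r : ℕ) : ℤ)) := by rw [heq]
  rw [qExpand_rootAt_some_coeff, qExpand_coeff_neg_eq_zero_of_not_dvd] at hc
  · exact inv_ne_zero (pow_ne_zero _ hζp0) hc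
  · intro hdvd
    have h1 : p ∣ r * r := dvd_trans (dvd_mul_right p p) hdvd
    have h2 : p ∣ r := by
      rcases (Nat.Prime.dvd_mul hp).mp h1 with h | h <;> exact h
    exact hpr ((Nat.prime_dvd_prime_iff_eq hp hr).mp h2)

end Gcd

section Main

variable (k : Type*) [Field k]

/-- **gcd lemma**: `j(q^{pr}) ∈ k(j(q^r), j(q^p))` for distinct primes `p, r` invertible
in `k`. -/
theorem jpr_mem_adjoin {p r : ℕ} [NeZero p] [NeZero r]
    (hp : p.Prime) (hr : r.Prime) (hpr : p ≠ r) (hpk : (p : k) ≠ 0) (hrk : (r : k) ≠ 0)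
    (Dp : ModPolyData p) (Dr : ModPolyData r) :
    qExpand k (p * r) (jqModC k) ∈
      IntermediateField.adjoin k
        ({qExpand k r (jqModC k), qExpand k p (jqModC k)} : Set (LaurentSeries k)) := by
  classical
  -- notation
  set E := IntermediateField.adjoin k
    ({qExpand k r (jqModC k), qExpand k p (jqModC k)} : Set (LaurentSeries k)) with hE
  set x : LaurentSeries k := qExpand k (p * r) (jqModC k) with hx
  have hr_mem : qExpand k r (jqModC k) ∈ E :=
    IntermediateField.subset_adjoin k _ (Set.mem_insert _ _)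
  have hp_mem : qExpand k p (jqModC k) ∈ E :=
    IntermediateField.subset_adjoin k _ (Set.mem_insert_of_mem _ rfl)
  let yr : E := ⟨_, hr_mem⟩
  let yp : E := ⟨_, hp_mem⟩
  let AE : Polynomial E := Dp.Φ.map (evZ yr)
  let BE : Polynomial E := Dr.Φ.map (evZ yp)
  have hAE_map : AE.map (algebraMap E (LaurentSeries k)) =
      Dp.Φ.map (evZ (qExpand k r (jqModC k))) := map_map_evZ _ _ _
  have hBE_map : BE.map (algebraMap E (LaurentSeries k)) =
      Dr.Φ.map (evZ (qExpand k p (jqModC k))) := map_map_evZ _ _ _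
  have hAx : Polynomial.aeval x AE = 0 := by
    rw [Polynomial.aeval_def, ← Polynomial.eval_map, hAE_map, Polynomial.eval_map, hx,
      qExpand_congr (mul_comm p r)]
    exact eval_jp_ring_qExpand k Dp r
  have hBx : Polynomial.aeval x BE = 0 := by
    rw [Polynomial.aeval_def, ← Polynomial.eval_map, hBE_map, Polynomial.eval_map, hx]
    exact eval_jp_ring_qExpand k Dr p
  have hAE_monic : AE.Monic := Dp.monic.map _
  have hint : IsIntegral E x := ⟨AE, hAE_monic, by rwa [Polynomial.aeval_def] at hAx⟩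
  have hμA : minpoly E x ∣ AE := minpoly.dvd E x hAx
  have hμB : minpoly E x ∣ BE := minpoly.dvd E x hBx
  -- roots of unity upstairs
  haveI : NeZero ((p : ℕ) : k) := ⟨hpk⟩
  haveI : NeZero ((r : ℕ) : k) := ⟨hrk⟩
  obtain ⟨ζp, hζp⟩ := HasEnoughRootsOfUnity.exists_primitiveRoot (AlgebraicClosure k) p
  obtain ⟨ζr, hζr⟩ := HasEnoughRootsOfUnity.exists_primitiveRoot (AlgebraicClosure k) r
  have hζp0 : ζp ≠ 0 := hζp.ne_zero (NeZero.ne p)
  -- the embedding
  let φ : E →+* LaurentSeries (AlgebraicClosure k) :=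
    (iotaE k (p * r)).comp (algebraMap E (LaurentSeries k))
  have hAφ : AE.map φ = Dp.Φ.map (evZ (qExpand (AlgebraicClosure k) (r * r * p)
      (jqModC (AlgebraicClosure k)))) := by
    rw [← Polynomial.map_map, hAE_map, map_map_evZ, iotaE_jd]
    rw [qExpand_congr (show p * r * r = r * r * p by ring)]
  have hBφ : BE.map φ = Dr.Φ.map (evZ (qExpand (AlgebraicClosure k) (p * p * r)
      (jqModC (AlgebraicClosure k)))) := by
    rw [← Polynomial.map_map, hBE_map, map_map_evZ, iotaE_jd]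
    rw [qExpand_congr (show p * r * p = p * p * r by ring)]
  have hcop := gcd_core hp hr hpr Dr ζp ζr hζp hζr
  rw [← hBφ] at hcop
  have hAfac : AE.map φ =
      (X - C (qExpand (AlgebraicClosure k) (r * r * (p * p)) (jqModC (AlgebraicClosure k)))) *
      ∏ b : Fin p, (X - C (qExpand (AlgebraicClosure k) (r * r) (rootAt ζp hζp0 (some b)))) := by
    rw [hAφ, map_eq_prod_rootAt_qExpand Dp hp.one_lt ζp hζp (r * r), Fintype.prod_option,
      qExpand_rootAt_none]
  have hμφA : (minpoly E x).map φ ∣ AE.map φ := Polynomial.map_dvd φ hμA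
  have hμφB : (minpoly E x).map φ ∣ BE.map φ := Polynomial.map_dvd φ hμB
  have hcop' : IsCoprime ((minpoly E x).map φ)
      (∏ b : Fin p, (X - C (qExpand (AlgebraicClosure k) (r * r) (rootAt ζp hζp0 (some b))))) :=
    IsCoprime.of_isCoprime_of_dvd_left hcop.symm hμφB
  rw [hAfac] at hμφA
  have hdvd := hcop'.dvd_of_dvd_mul_right hμφA
  have hdeg : (minpoly E x).natDegree ≤ 1 := by
    have h1 := Polynomial.natDegree_le_of_dvd hdvd (Polynomial.X_sub_C_ne_zero _)
    rwa [Polynomial.natDegree_map, Polynomial.natDegree_X_sub_C] at h1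
  have hpos : 0 < (minpoly E x).natDegree := minpoly.natDegree_pos hint
  have hone : (minpoly E x).natDegree = 1 := le_antisymm hdeg hpos
  obtain ⟨e, he⟩ := (minpoly.natDegree_eq_one_iff).mp hone
  rw [← he]
  exact e.2

/-- gcd lemma, after the substitution `q ↦ q^c`. -/
theorem jpr_mem_adjoin_qExpand {p r : ℕ} [NeZero p] [NeZero r]
    (hp : p.Prime) (hr : r.Prime) (hpr : p ≠ r) (hpk : (p : k) ≠ 0) (hrk : (r : k) ≠ 0)
    (Dp : ModPolyData p) (Dr : ModPolyData r) (c : ℕ) [NeZero c] :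
    qExpand k (c * (p * r)) (jqModC k) ∈
      IntermediateField.adjoin k
        ({qExpand k (c * r) (jqModC k), qExpand k (c * p) (jqModC k)} :
          Set (LaurentSeries k)) := by
  have h := jpr_mem_adjoin k hp hr hpr hpk hrk Dp Dr
  have h2 : qExpandAlgHomC k c (qExpand k (p * r) (jqModC k)) ∈
      (IntermediateField.adjoin k
        ({qExpand k r (jqModC k), qExpand k p (jqModC k)} : Set (LaurentSeries k))).map
        (qExpandAlgHomC k c) := ⟨_, h, rfl⟩
  rw [IntermediateField.adjoin_map, qExpandAlgHomC_apply, qExpand_qExpand, Set.image_pair,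
    qExpandAlgHomC_apply, qExpandAlgHomC_apply, qExpand_qExpand, qExpand_qExpand] at h2
  exact h2

end Main

end Fermat.Agent.S28.H208

end
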