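/-
S28 [L4] = [L.UP]: spanning monomials, uniform in the field `k`.

`exists_spanning_monomials`: from `ModPolyData r` for the primes `r ∣ N` one gets
`dedekindPsi N` monomials in the `j(q^d)`, `d ∣ N` (defined over `ℤ`), whose images span
`k(j(q^d) : d ∣ N)` over `k(j)` for EVERY field `k` in which `N` is invertible.
-/
import Mathlib
import Fermat.Agent.S28.Defs
import Fermat.Agent.S28.H208.Twist
import Fermat.Agent.S28.H208.RootList
import Fermat.Agent.S28.H208.Gcd
import Fermat.Agent.S28.H208.Tower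

set_option autoImplicit false

noncomputable section

open ModularCurve Polynomial IntermediateField

namespace Fermat.Agent.S28.H208

/-! ### Arithmetic of `dedekindPsi` (copied from helper872, `Fermat.Agent.S20.H872`) -/

section Psi

theorem psi_mul_prime_of_dvd {N p : ℕ} (hN : N ≠ 0) (hp : p.Prime) (hpN : p ∣ N) :
    ModularCurve.dedekindPsi (N * p) = p * ModularCurve.dedekindPsi N := by
  unfold ModularCurve.dedekindPsi
  have hset : (N * p).divisors.filter Squarefree = N.divisors.filter Squarefree := by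
    ext d
    simp only [Finset.mem_filter, Nat.mem_divisors]
    constructor
    · rintro ⟨⟨hd, _⟩, hsq⟩
      refine ⟨⟨?_, hN⟩, hsq⟩
      have h2 : d ∣ N ^ 2 := by
        rw [pow_two]
        exact hd.trans (mul_dvd_mul_left N hpN)
      exact (hsq.dvd_pow_iff_dvd two_ne_zero).1 h2
    · rintro ⟨⟨hd, _⟩, hsq⟩
      exact ⟨⟨hd.mul_right p, mul_ne_zero hN hp.ne_zero⟩, hsq⟩
  rw [hset, Finset.mul_sum]
  refine Finset.sum_congr rfl fun d hd => ?_
  have hdN : d ∣ N := (Nat.mem_divisors.1 (Finset.mem_filter.1 hd).1).1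
  obtain ⟨e, rfl⟩ := hdN
  have hd0 : 0 < d := Nat.pos_of_ne_zero (by rintro rfl; simp at hN)
  rw [mul_assoc, Nat.mul_div_cancel_left _ hd0, Nat.mul_div_cancel_left _ hd0, mul_comm]

theorem psi_mul_prime_of_not_dvd {N p : ℕ} (hN : N ≠ 0) (hp : p.Prime) (hpN : ¬ p ∣ N) :
    ModularCurve.dedekindPsi (N * p) = (p + 1) * ModularCurve.dedekindPsi N := by
  unfold ModularCurve.dedekindPsi
  have hcop : ∀ d, d ∣ N → Nat.Coprime d p := fun d hd =>
    (Nat.Coprime.symm ((Nat.Prime.coprime_iff_not_dvd hp).2 fun h => hpN (h.trans hd)))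
  have hset : (N * p).divisors.filter Squarefree
      = (N.divisors.filter Squarefree) ∪ (N.divisors.filter Squarefree).image (· * p) := by
    ext d
    simp only [Finset.mem_filter, Nat.mem_divisors, Finset.mem_union, Finset.mem_image]
    constructor
    · rintro ⟨⟨hd, _⟩, hsq⟩
      by_cases hpd : p ∣ d
      · right
        obtain ⟨e, rfl⟩ := hpd
        refine ⟨e, ⟨⟨?_, hN⟩, hsq.squarefree_of_dvd (Dvd.intro_left p rfl)⟩, mul_comm e p⟩
        rw [mul_comm p e] at hd
        exact Nat.dvd_of_mul_dvd_mul_right hp.pos hd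
      · left
        refine ⟨⟨?_, hN⟩, hsq⟩
        have : Nat.Coprime d p := (Nat.Coprime.symm ((Nat.Prime.coprime_iff_not_dvd hp).2 hpd))
        exact this.dvd_of_dvd_mul_right hd
    · rintro (⟨⟨hd, _⟩, hsq⟩ | ⟨e, ⟨⟨he, _⟩, hsq⟩, rfl⟩)
      · exact ⟨⟨hd.mul_right p, mul_ne_zero hN hp.ne_zero⟩, hsq⟩
      · refine ⟨⟨mul_dvd_mul_right he p, mul_ne_zero hN hp.ne_zero⟩, ?_⟩
        exact (Nat.squarefree_mul (hcop e he)).2 ⟨hsq, hp.squarefree⟩
  have hdisj : Disjoint (N.divisors.filter Squarefree)
      ((N.divisors.filter Squarefree).image (· * p)) := by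
    rw [Finset.disjoint_left]
    intro d hd hd'
    simp only [Finset.mem_filter, Nat.mem_divisors, Finset.mem_image] at hd hd'
    obtain ⟨e, _, rfl⟩ := hd'
    exact hpN ((Dvd.intro_left e rfl).trans hd.1.1)
  rw [hset, Finset.sum_union hdisj, Finset.sum_image, add_mul, one_mul, Finset.mul_sum]
  · congr 1
    · refine Finset.sum_congr rfl fun d hd => ?_
      have hdN : d ∣ N := (Nat.mem_divisors.1 (Finset.mem_filter.1 hd).1).1
      obtain ⟨e, rfl⟩ := hdN
      have hd0 : 0 < d := Nat.pos_of_ne_zero (by rintro rfl; simp at hN)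
      rw [mul_assoc, Nat.mul_div_cancel_left _ hd0, Nat.mul_div_cancel_left _ hd0, mul_comm]
    · refine Finset.sum_congr rfl fun d hd => ?_
      exact Nat.mul_div_mul_right N d hp.pos
  · intro a _ b _ hab
    exact Nat.eq_of_mul_eq_mul_right hp.pos hab

/-- The degree of the tower step `M → p * M`. -/
def stepDeg (M p : ℕ) : ℕ := if p ∣ M then p else p + 1

theorem stepDeg_pos (M p : ℕ) (hp : p.Prime) : 0 < stepDeg M p := by
  unfold stepDeg
  split_ifs
  · exact hp.pos
  · exact Nat.succ_pos p

theorem psi_mul_stepDeg {M p : ℕ} (hM : M ≠ 0) (hp : p.Prime) :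
    ModularCurve.dedekindPsi M * stepDeg M p = ModularCurve.dedekindPsi (p * M) := by
  unfold stepDeg
  rw [mul_comm p M]
  split_ifs with h
  · rw [psi_mul_prime_of_dvd hM hp h, mul_comm]
  · rw [psi_mul_prime_of_not_dvd hM hp h, mul_comm]

end Psi

/-! ### Integrality of the tower generator, with degree -/

section Integral

variable {k : Type*} [Field k]

theorem towerGen_ne {M p : ℕ} [NeZero p] (hp : p.Prime) (a' : ℕ)
    (ha : M.factorization p = a' + 1) :
    towerGen k M p ≠ qExpand k (p ^ a') (jqModC k) := by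
  intro h
  have h1 : (towerGen k M p).coeff (-((p * p ^ M.factorization p : ℕ) : ℤ)) = 1 :=
    coeff_jd_neg k _
  rw [h, coeff_jd_of_lt] at h1
  · exact zero_ne_one h1
  · rw [ha]
    have hp2 := hp.two_le
    have hpos : 0 < p ^ a' := pow_pos hp.pos a'
    have h4 : 4 ≤ p * p := Nat.mul_le_mul hp2 hp2
    have h5 := Nat.mul_le_mul_left (p ^ a') h4
    have : p ^ a' < p * p ^ (a' + 1) := by
      rw [pow_succ]
      nlinarith
    exact_mod_cast neg_lt_neg (by exact_mod_cast this : ((p ^ a' : ℕ) : ℤ) < (p * p ^ (a' + 1) : ℕ))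

theorem exists_monic_towerGen (M p : ℕ) [NeZero M] [NeZero p] (hp : p.Prime)
    (Dp : ModPolyData p) :
    ∃ Q : Polynomial (modularFunctionFieldFullC k M), Q.Monic ∧
      Q.natDegree = stepDeg M p ∧ Polynomial.aeval (towerGen k M p) Q = 0 := by
  have hM0 : M ≠ 0 := NeZero.ne M
  by_cases hpM : p ∣ M
  · -- old prime: divide by the known root
    obtain ⟨a', ha⟩ : ∃ a', M.factorization p = a' + 1 :=
      Nat.exists_eq_succ_of_ne_zero (hp.factorization_pos_of_dvd hM0 hpM).ne'
    have hP0 : p ^ (a' + 1) ∣ M := by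
      rw [← ha]; exact Nat.ordProj_dvd M p
    have hP1 : p ^ a' ∣ M := (pow_dvd_pow p (Nat.le_succ a')).trans hP0
    let y₀ : modularFunctionFieldFullC k M := ⟨qExpand k (p ^ (a' + 1)) (jqModC k), jd_mem_full hP0⟩
    let y₁ : modularFunctionFieldFullC k M := ⟨qExpand k (p ^ a') (jqModC k), jd_mem_full hP1⟩
    let Φ' : Polynomial (modularFunctionFieldFullC k M) := Dp.Φ.map (evZ y₀)
    have hΦ'monic : Φ'.Monic := Dp.monic.map _
    have hΦ'deg : Φ'.natDegree = p + 1 := by
      rw [Dp.monic.natDegree_map, Dp.natDegree_eq]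
    have hΦ'map : Φ'.map (algebraMap (modularFunctionFieldFullC k M) (LaurentSeries k)) =
        Dp.Φ.map (evZ (qExpand k (p ^ (a' + 1)) (jqModC k))) := map_map_evZ _ _ _
    have hroot : Φ'.IsRoot y₁ := by
      rw [Polynomial.IsRoot]
      apply (algebraMap (modularFunctionFieldFullC k M) (LaurentSeries k)).injective
      rw [map_zero, ← Polynomial.eval_map_apply, hΦ'map, Polynomial.eval_map]
      have h := eval_j_ring_qExpand k Dp (p ^ a')
      rw [qExpand_congr (pow_succ p a').symm] at h
      exact h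
    have hfac : (X - C y₁) * (Φ' /ₘ (X - C y₁)) = Φ' :=
      Polynomial.mul_divByMonic_eq_iff_isRoot.mpr hroot
    refine ⟨Φ' /ₘ (X - C y₁), ?_, ?_, ?_⟩
    · exact Polynomial.Monic.of_mul_monic_left (Polynomial.monic_X_sub_C y₁)
        (by rw [hfac]; exact hΦ'monic)
    · rw [Polynomial.natDegree_divByMonic _ (Polynomial.monic_X_sub_C y₁), hΦ'deg,
        Polynomial.natDegree_X_sub_C, stepDeg, if_pos hpM]
      rfl
    · have hΦ'ξ : Polynomial.aeval (towerGen k M p) Φ' = 0 := by
        have hξ : towerGen k M p = qExpand k (p ^ (a' + 1) * p) (jqModC k) :=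
          qExpand_congr (by rw [ha]; ring) _
        rw [Polynomial.aeval_def, ← Polynomial.eval_map, hΦ'map, Polynomial.eval_map, hξ]
        exact eval_jp_ring_qExpand k Dp (p ^ (a' + 1))
      rw [← hfac, map_mul, map_sub, Polynomial.aeval_X, Polynomial.aeval_C] at hΦ'ξ
      rcases mul_eq_zero.mp hΦ'ξ with h | h
      · exact absurd (sub_eq_zero.mp h) (towerGen_ne hp a' ha)
      · exact h
  · -- new prime
    have ha : M.factorization p = 0 := Nat.factorization_eq_zero_of_not_dvd hpM
    let y₀ : modularFunctionFieldFullC k M := ⟨jqModC k, jqModC_mem_full k M⟩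
    refine ⟨Dp.Φ.map (evZ y₀), Dp.monic.map _, ?_, ?_⟩
    · rw [Dp.monic.natDegree_map, Dp.natDegree_eq, stepDeg, if_neg hpM]
    · have hmap : (Dp.Φ.map (evZ y₀)).map
          (algebraMap (modularFunctionFieldFullC k M) (LaurentSeries k)) =
          Dp.Φ.map (evZ (jqModC k)) := map_map_evZ _ _ _
      have hξ : towerGen k M p = qExpand k p (jqModC k) :=
        qExpand_congr (by rw [ha]; simp) _
      rw [Polynomial.aeval_def, ← Polynomial.eval_map, hmap, Polynomial.eval_map, hξ]
      exact eval_jp_ring k Dp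

end Integral

/-! ### The spanning step -/

section SpanStep

variable {k : Type*} [Field k]

theorem mul_mem_span_of_mem_span {ι : Type*} (y : ι → LaurentSeries k) (w : LaurentSeries k)
    {z : LaurentSeries k} (hz : z ∈ Submodule.span (jField k) (Set.range y)) :
    z * w ∈ Submodule.span (jField k) (Set.range fun i => y i * w) := by
  induction hz using Submodule.span_induction with
  | mem x hx =>
    obtain ⟨i, rfl⟩ := hx
    exact Submodule.subset_span ⟨i, rfl⟩
  | zero => rw [zero_mul]; exact Submodule.zero_mem _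
  | add x y _ _ hx hy => rw [add_mul]; exact Submodule.add_mem _ hx hy
  | smul c x _ hx => rw [smul_mul_assoc]; exact Submodule.smul_mem _ c hx

theorem span_step (M p : ℕ) [NeZero M] [NeZero p] (hp : p.Prime)
    (hk : ((p * M : ℕ) : k) ≠ 0) (hΦ : HasModPoly (p * M))
    {n : ℕ} (y : Fin n → LaurentSeries k)
    (hy : ∀ z ∈ modularFunctionFieldFullC k M, z ∈ Submodule.span (jField k) (Set.range y)) :
    ∀ x ∈ modularFunctionFieldFullC k (p * M),
      x ∈ Submodule.span (jField k)
        (Set.range fun t : Fin n × Fin (stepDeg M p) => y t.1 * towerGen k M p ^ (t.2 : ℕ)) := by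
  intro x hx
  obtain ⟨Dp⟩ := hΦ p hp (Dvd.intro _ rfl)
  obtain ⟨Q, hQmonic, hQdeg, hQξ⟩ := exists_monic_towerGen (k := k) M p hp Dp
  have hint : IsIntegral (modularFunctionFieldFullC k M) (towerGen k M p) :=
    ⟨Q, hQmonic, by rwa [Polynomial.aeval_def] at hQξ⟩
  have hx' : x ∈ (IntermediateField.adjoin (modularFunctionFieldFullC k M)
      ({towerGen k M p} : Set (LaurentSeries k))) := full_le_adjoin_tower M p hp hk hΦ hx
  have hx'' : x ∈ (IntermediateField.adjoin (modularFunctionFieldFullC k M)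
      ({towerGen k M p} : Set (LaurentSeries k))).toSubalgebra := hx'
  rw [IntermediateField.adjoin_simple_toSubalgebra_of_isAlgebraic hint.isAlgebraic,
    Algebra.adjoin_singleton_eq_range_aeval] at hx''
  obtain ⟨f, rfl⟩ := hx''
  have hQ1 : Q ≠ 1 := by
    intro h
    have := stepDeg_pos M p hp
    rw [← hQdeg, h, Polynomial.natDegree_one] at this
    exact lt_irrefl _ this
  have hdeg : (f %ₘ Q).natDegree < stepDeg M p := by
    rw [← hQdeg]
    exact Polynomial.natDegree_modByMonic_lt f hQmonic hQ1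
  have hf : Polynomial.aeval (towerGen k M p) f = Polynomial.aeval (towerGen k M p) (f %ₘ Q) :=
    (Polynomial.aeval_modByMonic_eq_self_of_root hQξ).symm
  show Polynomial.aeval (towerGen k M p) f ∈ _
  rw [hf, Polynomial.aeval_eq_sum_range' hdeg]
  refine Submodule.sum_mem _ fun m hm => ?_
  have hm' : m < stepDeg M p := Finset.mem_range.mp hm
  have hc : (((f %ₘ Q).coeff m : modularFunctionFieldFullC k M) : LaurentSeries k) ∈
      Submodule.span (jField k) (Set.range y) := hy _ ((f %ₘ Q).coeff m).2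
  have h1 := mul_mem_span_of_mem_span y (towerGen k M p ^ m) hc
  have h2 : Submodule.span (jField k) (Set.range fun i => y i * towerGen k M p ^ m) ≤
      Submodule.span (jField k)
        (Set.range fun t : Fin n × Fin (stepDeg M p) => y t.1 * towerGen k M p ^ (t.2 : ℕ)) := by
    apply Submodule.span_mono
    rintro _ ⟨i, rfl⟩
    exact ⟨(i, ⟨m, hm'⟩), rfl⟩
  have h3 : ((f %ₘ Q).coeff m) • (towerGen k M p ^ m) =
      (((f %ₘ Q).coeff m : modularFunctionFieldFullC k M) : LaurentSeries k) *
        towerGen k M p ^ m := by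
    rw [Algebra.smul_def]
    rfl
  rw [h3]
  exact h2 h1

end SpanStep

/-! ### The main theorem -/

section Main

theorem intDivisorExpansions_mono {M N : ℕ} (h : M ∣ N) :
    intDivisorExpansions M ⊆ intDivisorExpansions N := by
  rintro x ⟨d, hd0, hd, rfl⟩
  exact ⟨d, hd0, hd.trans h, rfl⟩

/-- **Spanning monomials, uniform in `k`.** -/
theorem exists_spanning_monomials (N : ℕ) (hN : N ≠ 0) (hΦ : HasModPoly N) :
    ∃ (n : ℕ) (y : Fin n → LaurentSeries ℤ), n = dedekindPsi N ∧
      (∀ i, y i ∈ Subring.closure (intDivisorExpansions N)) ∧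
      ∀ (k : Type) [Field k], (N : k) ≠ 0 →
        ∀ x ∈ modularFunctionFieldFullC k N,
          x ∈ Submodule.span (jField k)
            (Set.range fun i => coeffMap (Int.castRingHom k) (y i)) := by
  induction N using induction_on_primes with
  | zero => exact absurd rfl hN
  | one =>
    refine ⟨1, fun _ => 1, dedekindPsi_one.symm, fun _ => Subring.one_mem _, ?_⟩
    intro k _ _ x hx
    have hle : modularFunctionFieldFullC k 1 ≤ jField k := by
      rw [modularFunctionFieldFullC, IntermediateField.adjoin_le_iff]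
      rintro _ ⟨d, hd0, hd, rfl⟩
      have hd1 : d = 1 := Nat.dvd_one.mp hd
      subst hd1
      rw [qExpand_one_apply]
      exact IntermediateField.subset_adjoin k _ rfl
    have hxj : x ∈ jField k := hle hx
    have h1 : (1 : LaurentSeries k) ∈ Submodule.span (jField k)
        (Set.range fun _ : Fin 1 => coeffMap (Int.castRingHom k) (1 : LaurentSeries ℤ)) := by
      apply Submodule.subset_span
      exact ⟨0, map_one _⟩
    have h2 := Submodule.smul_mem _ (⟨x, hxj⟩ : jField k) h1
    have h3 : (⟨x, hxj⟩ : jField k) • (1 : LaurentSeries k) = x := by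
      rw [Algebra.smul_def, mul_one]
      rfl
    rwa [h3] at h2
  | prime_mul p M hp ih =>
    have hM : M ≠ 0 := fun h => hN (by rw [h, mul_zero])
    haveI : NeZero M := ⟨hM⟩
    haveI : NeZero p := ⟨hp.ne_zero⟩
    obtain ⟨n, y, hn, hcl, hspan⟩ := ih hM (hΦ.of_dvd (Dvd.intro_left _ rfl))
    refine ⟨n * stepDeg M p,
      fun t => y (finProdFinEquiv.symm t).1 * towerGenZ M p ^ ((finProdFinEquiv.symm t).2 : ℕ),
      ?_, ?_, ?_⟩
    · rw [hn, psi_mul_stepDeg hM hp]
    · intro t
      refine Subring.mul_mem _ ?_ (Subring.pow_mem _ ?_ _)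
      · exact Subring.closure_mono (intDivisorExpansions_mono (Dvd.intro_left _ rfl)) (hcl _)
      · apply Subring.subset_closure
        refine ⟨p * p ^ M.factorization p, inferInstance, ?_, rfl⟩
        exact Nat.mul_dvd_mul_left p (Nat.ordProj_dvd M p)
    · intro k _ hk x hx
      have hkM : (M : k) ≠ 0 := natCast_ne_zero_of_dvd (Dvd.intro_left _ rfl) hk
      have h := span_step (k := k) M p hp hk hΦ
        (fun i => coeffMap (Int.castRingHom k) (y i)) (hspan k hkM) x hx
      refine Submodule.span_mono ?_ h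
      rintro _ ⟨t, rfl⟩
      refine ⟨finProdFinEquiv t, ?_⟩
      simp only [Equiv.symm_apply_apply, map_mul, map_pow, coeffMap_towerGenZ]

end Main

end Fermat.Agent.S28.H208

end
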