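/-
S28 [L4]: the tower step.  For a field `k`, a level `M` and a prime `p` with `p * M`
invertible in `k`:  `E_{pM} = E_M(ξ)` with `ξ = j(q^{p·p^a})`, `p^a ∥ M`, and `ξ` is a root of a
monic polynomial of degree `p + 1` (if `p ∤ M`) resp. `p` (if `p ∣ M`) over `E_M`.
-/
import Mathlib
import Fermat.Agent.S28.Defs
import Fermat.Agent.S28.H208.Twist
import Fermat.Agent.S28.H208.RootList
import Fermat.Agent.S28.H208.Gcd

set_option autoImplicit false

noncomputable section

open ModularCurve Polynomial IntermediateField

namespace Fermat.Agent.S28.H208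

section Numerics

/-- If `d ∣ p * M` but `d ∤ M`, then `d = p · p^a · e` with `p^a ∥ M` and `e ∣ M / p^a`. -/
theorem exists_eq_mul_of_dvd_of_not_dvd {p M d : ℕ} (hp : p.Prime)
    (hd : d ∣ p * M) (hnd : ¬ d ∣ M) :
    ∃ e, d = p * p ^ M.factorization p * e ∧ e ∣ M / p ^ M.factorization p := by
  have hM : p ^ M.factorization p * (M / p ^ M.factorization p) = M :=
    Nat.ordProj_mul_ordCompl_eq_self M p
  have hpM : p * M = p ^ (M.factorization p + 1) * (M / p ^ M.factorization p) := by
    conv_lhs => rw [← hM]
    rw [pow_succ]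
    ring
  rw [hpM] at hd
  obtain ⟨y, z, hy, hz, rfl⟩ := Nat.dvd_mul.mp hd
  obtain ⟨i, hi, rfl⟩ := (Nat.dvd_prime_pow hp).mp hy
  rcases Nat.lt_or_ge i (M.factorization p + 1) with hlt | hge
  · exfalso
    apply hnd
    rw [← hM]
    exact Nat.mul_dvd_mul (pow_dvd_pow p (Nat.lt_succ_iff.mp hlt)) hz
  · have : i = M.factorization p + 1 := le_antisymm hi hge
    subst this
    exact ⟨z, by rw [pow_succ]; ring, hz⟩

theorem natCast_ne_zero_of_dvd {k : Type*} [Semiring k] {a b : ℕ} (hab : a ∣ b)
    (hb : (b : k) ≠ 0) : (a : k) ≠ 0 := by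
  intro ha
  obtain ⟨c, rfl⟩ := hab
  apply hb
  rw [Nat.cast_mul, ha, zero_mul]

end Numerics

section Generation

variable (k : Type*) [Field k]

/-- The tower generator `ξ = j(q^{p · p^a})`, `p^a ∥ M`. -/
def towerGen (M p : ℕ) [NeZero p] : LaurentSeries k :=
  qExpand k (p * p ^ M.factorization p) (jqModC k)

/-- The integral version of the tower generator. -/
def towerGenZ (M p : ℕ) [NeZero p] : LaurentSeries ℤ :=
  qExpand ℤ (p * p ^ M.factorization p) (jqModC ℤ)

theorem coeffMap_towerGenZ (M p : ℕ) [NeZero p] :
    coeffMap (Int.castRingHom k) (towerGenZ M p) = towerGen k M p :=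
  coeffMap_int_jd k _

/-- The hypothesis: modular polynomials exist for all primes dividing `N`. -/
def HasModPoly (N : ℕ) : Prop :=
  ∀ (r : ℕ) [NeZero r], r.Prime → r ∣ N → Nonempty (ModPolyData r)

theorem HasModPoly.of_dvd {M N : ℕ} (h : HasModPoly N) (hMN : M ∣ N) : HasModPoly M :=
  fun r _ hr hrM => h r hr (hrM.trans hMN)

variable {k}

theorem jd_mem_full {M d : ℕ} [NeZero d] (hd : d ∣ M) :
    qExpand k d (jqModC k) ∈ modularFunctionFieldFullC k M :=
  jqModCd_mem_full k M hd

/-- Auxiliary: all `j(q^{p p^a e})`, `e ∣ M / p^a`, lie in `E_M(ξ)`. -/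
theorem jd_mem_adjoin_aux (M p : ℕ) [NeZero M] [NeZero p] (hp : p.Prime)
    (hk : ((p * M : ℕ) : k) ≠ 0) (hΦ : HasModPoly (p * M)) :
    ∀ (e : ℕ) [NeZero e], e ∣ M / p ^ M.factorization p →
      qExpand k (p * p ^ M.factorization p * e) (jqModC k) ∈
        (IntermediateField.adjoin (modularFunctionFieldFullC k M)
          ({towerGen k M p} : Set (LaurentSeries k))) := by
  intro e
  induction e using Nat.strong_induction_on with
  | _ e ih =>
    intro _ he
    have hM0 : M ≠ 0 := NeZero.ne M
    have hMfac : p ^ M.factorization p * (M / p ^ M.factorization p) = M :=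
      Nat.ordProj_mul_ordCompl_eq_self M p
    rcases eq_or_ne e 1 with rfl | he1
    · rw [qExpand_congr (mul_one _)]
      exact IntermediateField.mem_adjoin_simple_self _ _
    · -- a prime factor `r ≠ p` of `e`
      obtain ⟨r, hr, hre⟩ : ∃ r : ℕ, r.Prime ∧ r ∣ e :=
        ⟨e.minFac, Nat.minFac_prime he1, Nat.minFac_dvd e⟩
      obtain ⟨e', he'⟩ := hre
      have he0 : e ≠ 0 := NeZero.ne e
      have he'0 : e' ≠ 0 := by
        rintro rfl
        rw [mul_zero] at he'
        exact he0 he'
      haveI : NeZero e' := ⟨he'0⟩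
      haveI : NeZero r := ⟨hr.ne_zero⟩
      have he'lt : e' < e := by
        have h2 := hr.two_le
        calc e' < r * e' := by nlinarith [Nat.pos_of_ne_zero he'0]
          _ = e := he'.symm
      have he'dvd : e' ∣ M / p ^ M.factorization p :=
        (Dvd.intro_left _ he'.symm).trans he
      have hrM' : r ∣ M / p ^ M.factorization p := (Dvd.intro _ he'.symm).trans he
      have hrp : p ≠ r := by
        intro h
        rw [← h] at hrM'
        exact Nat.not_dvd_ordCompl hp hM0 hrM'
      have hrdvd : r ∣ p * M := by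
        have h2 : M / p ^ M.factorization p ∣ M := Dvd.intro_left _ hMfac
        exact (hrM'.trans h2).trans (Dvd.intro_left _ rfl)
      have hpk : (p : k) ≠ 0 := natCast_ne_zero_of_dvd (Dvd.intro _ rfl) hk
      have hrk : (r : k) ≠ 0 := natCast_ne_zero_of_dvd hrdvd hk
      obtain ⟨Dp⟩ := hΦ p hp (Dvd.intro _ rfl)
      obtain ⟨Dr⟩ := hΦ r hr hrdvd
      -- the gcd lemma with `c = p^a * e'`
      have hgcd := jpr_mem_adjoin_qExpand k hp hr hrp hpk hrk Dp Dr
        (p ^ M.factorization p * e')
      have hidx : p ^ M.factorization p * e' * (p * r) =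
          p * p ^ M.factorization p * e := by
        rw [he']; ring
      rw [qExpand_congr hidx] at hgcd
      -- both generators lie in `E_M(ξ)`
      have h1 : qExpand k (p ^ M.factorization p * e' * r) (jqModC k) ∈
          (IntermediateField.adjoin (modularFunctionFieldFullC k M)
            ({towerGen k M p} : Set (LaurentSeries k))) := by
        have hdvd : p ^ M.factorization p * e' * r ∣ M := by
          have : p ^ M.factorization p * e' * r = p ^ M.factorization p * e := by
            rw [he']; ring
          rw [this]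
          conv_rhs => rw [← hMfac]
          exact Nat.mul_dvd_mul_left _ he
        have hmem := jd_mem_full (k := k) hdvd
        exact (IntermediateField.adjoin (modularFunctionFieldFullC k M)
            ({towerGen k M p} : Set (LaurentSeries k))).algebraMap_mem ⟨_, hmem⟩
      have h2 : qExpand k (p ^ M.factorization p * e' * p) (jqModC k) ∈
          (IntermediateField.adjoin (modularFunctionFieldFullC k M)
            ({towerGen k M p} : Set (LaurentSeries k))) := by
        have := ih e' he'lt he'dvd
        rwa [qExpand_congr (show p ^ M.factorization p * e' * p =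
          p * p ^ M.factorization p * e' by ring)]
      have hle : IntermediateField.adjoin k
          ({qExpand k (p ^ M.factorization p * e' * r) (jqModC k),
            qExpand k (p ^ M.factorization p * e' * p) (jqModC k)} : Set (LaurentSeries k)) ≤
          (IntermediateField.adjoin (modularFunctionFieldFullC k M)
            ({towerGen k M p} : Set (LaurentSeries k))).restrictScalars k := by
        rw [IntermediateField.adjoin_le_iff]
        rintro y (rfl | rfl)
        · exact h1
        · exact h2
      exact hle hgcd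

/-- **Generation**: every `j(q^d)`, `d ∣ p * M`, lies in `E_M(ξ)`. -/
theorem jd_mem_adjoin_tower (M p : ℕ) [NeZero M] [NeZero p] (hp : p.Prime)
    (hk : ((p * M : ℕ) : k) ≠ 0) (hΦ : HasModPoly (p * M))
    (d : ℕ) [NeZero d] (hd : d ∣ p * M) :
    qExpand k d (jqModC k) ∈
      (IntermediateField.adjoin (modularFunctionFieldFullC k M)
        ({towerGen k M p} : Set (LaurentSeries k))) := by
  by_cases hdM : d ∣ M
  · exact (IntermediateField.adjoin (modularFunctionFieldFullC k M)
      ({towerGen k M p} : Set (LaurentSeries k))).algebraMap_mem ⟨_, jd_mem_full hdM⟩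
  · obtain ⟨e, hde, he⟩ := exists_eq_mul_of_dvd_of_not_dvd hp hd hdM
    have he0 : e ≠ 0 := by
      rintro rfl
      rw [mul_zero] at hde
      exact NeZero.ne d hde
    haveI : NeZero e := ⟨he0⟩
    rw [qExpand_congr hde]
    exact jd_mem_adjoin_aux M p hp hk hΦ e he

/-- `E_{pM} ≤ E_M(ξ)`. -/
theorem full_le_adjoin_tower (M p : ℕ) [NeZero M] [NeZero p] (hp : p.Prime)
    (hk : ((p * M : ℕ) : k) ≠ 0) (hΦ : HasModPoly (p * M)) :
    modularFunctionFieldFullC k (p * M) ≤
      (IntermediateField.adjoin (modularFunctionFieldFullC k M)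
        ({towerGen k M p} : Set (LaurentSeries k))).restrictScalars k := by
  rw [modularFunctionFieldFullC, IntermediateField.adjoin_le_iff]
  rintro y ⟨d, hd0, hd, rfl⟩
  exact jd_mem_adjoin_tower M p hp hk hΦ d hd

end Generation

end Fermat.Agent.S28.H208

end
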