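/-
S28 [L.UP], consumer forms:
* `integral_jd` : every `j(q^d)`, `d ∣ N`, is integral over `ℤ[j]`  (`CoreData.integral`);
* `card_le_dedekindPsi` : a `k(j)`-linearly independent family in `k(j(q^d) : d ∣ N)` has at most
  `dedekindPsi N` elements (any field `k` with `N` invertible);
* `upper_bound_rat` : the same over `ℚ`, in the shape `hU` of `H325.coreData_of_bounds`.
-/
import Mathlib
import Fermat.Agent.S28.Defs
import Fermat.Agent.S28.H208.Twist
import Fermat.Agent.S28.H208.RootList
import Fermat.Agent.S28.H208.Gcd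
import Fermat.Agent.S28.H208.Tower
import Fermat.Agent.S28.H208.Span

set_option autoImplicit false

noncomputable section

open ModularCurve Polynomial IntermediateField

namespace Fermat.Agent.S28.H208

/-! ### Integrality of the `j(q^d)` over `ℤ[j]` -/

section Integral

/-- One integrality step: if `y` is integral over `ℤ[j]` (via `f`) and `x` is a root of
`Φ(X, y)` with `Φ` monic, then `x` is integral over `ℤ[j]`. -/
theorem isIntegralElem_of_root {A : Type*} [CommRing A] (f : Polynomial ℤ →+* A)
    (Φ : Polynomial (Polynomial ℤ)) (hΦ : Φ.Monic) (x y : A)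
    (hy : f.IsIntegralElem y) (hx : Φ.eval₂ (evZ y) x = 0) : f.IsIntegralElem x := by
  letI : Algebra (Polynomial ℤ) A := f.toAlgebra
  have hy' : IsIntegral (Polynomial ℤ) y := hy
  let S := integralClosure (Polynomial ℤ) A
  let yS : S := ⟨y, hy'⟩
  have hcomp : (algebraMap S A).comp (evZ yS) = evZ y := evZ_comp _ _
  have hxS : IsIntegral S x := by
    refine ⟨Φ.map (evZ yS), hΦ.map _, ?_⟩
    rw [Polynomial.eval₂_map, hcomp]
    exact hx
  exact isIntegral_trans x hxS

theorem integral_jd_aux (d : ℕ) :
    ∀ [NeZero d], HasModPoly d →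
      (evalAt (jqModC ℤ)).IsIntegralElem (qExpand ℤ d (jqModC ℤ)) := by
  induction d using induction_on_primes with
  | zero => intro h; exact absurd rfl (NeZero.ne (0 : ℕ))
  | one =>
    intro _ _
    refine ⟨Polynomial.X - Polynomial.C Polynomial.X, Polynomial.monic_X_sub_C _, ?_⟩
    rw [Polynomial.eval₂_sub, Polynomial.eval₂_X, Polynomial.eval₂_C, qExpand_one_apply]
    simp [evalAt]
  | prime_mul p M hp ih =>
    intro _ hΦ
    have hM : M ≠ 0 := fun h => NeZero.ne (p * M) (by rw [h, mul_zero])
    haveI : NeZero M := ⟨hM⟩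
    haveI : NeZero p := ⟨hp.ne_zero⟩
    obtain ⟨Dp⟩ := hΦ p hp (Dvd.intro _ rfl)
    have hy := ih (hΦ.of_dvd (Dvd.intro_left _ rfl))
    have hx := eval_jp_ring_qExpand ℤ Dp M
    rw [qExpand_congr (mul_comm M p)] at hx
    exact isIntegralElem_of_root _ Dp.Φ Dp.monic _ _ hy hx

/-- **Integrality** of `j(q^d)` over `ℤ[j]` (the field `integral` of `CoreData`). -/
theorem integral_jd (N : ℕ) (hΦ : HasModPoly N) (d : ℕ) [NeZero d] (hd : d ∣ N) :
    ∃ P : Polynomial (Polynomial ℤ), P.Monic ∧
      P.eval₂ (evalAt (jqModC ℤ)) (qExpand ℤ d (jqModC ℤ)) = 0 :=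
  integral_jd_aux d (hΦ.of_dvd hd)

end Integral

/-! ### The upper bound in "independent families are small" form -/

section Upper

theorem card_le_of_span {k : Type*} [Field k] {n m : ℕ} (y : Fin n → LaurentSeries k)
    (x : Fin m → LaurentSeries k)
    (hx : ∀ i, x i ∈ Submodule.span (jField k) (Set.range y))
    (hli : LinearIndependent (jField k) x) : m ≤ n := by
  haveI : Module.Finite (jField k) (Submodule.span (jField k) (Set.range y)) :=
    Module.Finite.span_of_finite _ (Set.finite_range y)
  have hli' : LinearIndependent (jField k)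
      (fun i => (⟨x i, hx i⟩ : Submodule.span (jField k) (Set.range y))) := by
    apply LinearIndependent.of_comp (Submodule.span (jField k) (Set.range y)).subtype
    exact hli
  have h1 := hli'.fintype_card_le_finrank
  have h2 := finrank_range_le_card (R := jField k) y
  rw [Fintype.card_fin] at h1 h2
  exact h1.trans h2

/-- **Upper bound**, any field `k` (of type `Type`) in which `N` is invertible. -/
theorem card_le_dedekindPsi (N : ℕ) (hN : N ≠ 0) (hΦ : HasModPoly N) (k : Type) [Field k]
    (hk : (N : k) ≠ 0) (m : ℕ) (x : Fin m → LaurentSeries k)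
    (hx : ∀ i, x i ∈ modularFunctionFieldFullC k N)
    (hli : LinearIndependent (jField k) x) : m ≤ dedekindPsi N := by
  obtain ⟨n, y, hn, -, hspan⟩ := exists_spanning_monomials N hN hΦ
  rw [← hn]
  exact card_le_of_span _ x (fun i => hspan k hk _ (hx i)) hli

/-- **Upper bound over `ℚ`**, in the shape of the hypothesis `hU` of
`H325.coreData_of_bounds`. -/
theorem upper_bound_rat (N : ℕ) [NeZero N] (hΦ : HasModPoly N) :
    ∀ (m : ℕ) (x : Fin m → LaurentSeries ℚ), (∀ i, x i ∈ modularFunctionFieldFull N) →
      LinearIndependent (jField ℚ) x → m ≤ dedekindPsi N := by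
  intro m x hx hli
  have hk : ((N : ℕ) : ℚ) ≠ 0 := Nat.cast_ne_zero.mpr (NeZero.ne N)
  exact card_le_dedekindPsi N (NeZero.ne N) hΦ ℚ hk m x hx hli

/-- `HasModPoly N` from the analytic stub. -/
theorem hasModPoly_of_nonempty
    (h : ∀ (p : ℕ) [NeZero p], p.Prime → Nonempty (ModPolyData p)) (N : ℕ) : HasModPoly N :=
  fun r _ hr _ => h r hr

end Upper

end Fermat.Agent.S28.H208

end
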